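import Fermat.Agent.S10.DescCommon

set_option autoImplicit false

namespace Fermat.Agent.S10

namespace Desc13

open Fermat.Agent.S10.DescCommon

theorem res13 : ∀ u v : ZMod 13, 3 * v ^ 2 = 2 * u ^ 2 → u = 0 ∧ v = 0 := by decide

theorem hyp13 : Hyp 3 13 where
  hb := by norm_num
  hc8 := by norm_num
  hsplit := by
    intro P Q w hc h
    have h' : P * Q = 13 ^ 1 * w ^ 4 := by rw [h]; norm_num
    obtain ⟨α, β, hab, hcase⟩ := split_of_prime_pow (by norm_num : Nat.Prime 13) hc h'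
    refine ⟨α, β, hab, ?_⟩
    simpa using hcase
  hres := by
    intro ℓ u v T hℓ hℓb hT hℓT
    have hℓ13 : ℓ = 13 := (Nat.prime_dvd_prime_iff_eq hℓ (by norm_num)).mp hℓb
    subst hℓ13
    have hz := congrArg (Nat.cast : ℕ → ZMod 13) hT
    push_cast at hz
    have hT0 : ((T : ℕ) : ZMod 13) = 0 := (ZMod.natCast_eq_zero_iff T 13).mpr hℓT
    rw [hT0, zero_add] at hz
    obtain ⟨h1, h2⟩ := res13 _ _ hz
    exact ⟨(ZMod.natCast_eq_zero_iff u 13).mp h1, (ZMod.natCast_eq_zero_iff v 13).mp h2⟩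

end Desc13

/-- The curve `y² = x (x² + 6 x + 13)` (52a1) has no rational point with `x ≠ 0`. -/
theorem desc13 (x y : ℚ) (h : y ^ 2 = x * (x ^ 2 + 6 * x + 13)) : x = 0 :=
  DescCommon.no_rat_point Desc13.hyp13 (π := 13) (j := 0) (by norm_num) (by norm_num) x y
    (by rw [h]; push_cast; ring)

end Fermat.Agent.S10
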