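import Mathlib

/-!
# S10 (modular hedge), piece D7: the rational points of `y² = x (x² + 13 x + 128)`
(the curve 14a, `E(ℚ) ≅ ℤ/6`), by descent via the 2-isogeny.
-/

set_option autoImplicit false

namespace Fermat.Agent.S10.D7

/-- Coprime natural factors of a fourth power are fourth powers. -/
theorem pow4_of_coprime_mul {a b c : ℕ} (h : Nat.Coprime a b) (hab : a * b = c ^ 4) :
    ∃ u v, a = u ^ 4 ∧ b = v ^ 4 ∧ c = u * v := by
  obtain ⟨u, hu⟩ := exists_eq_pow_of_mul_eq_pow (Nat.isUnit_iff.mpr h) hab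
  obtain ⟨v, hv⟩ := exists_eq_pow_of_mul_eq_pow (Nat.isUnit_iff.mpr h.symm)
    (show b * a = c ^ 4 by rw [mul_comm]; exact hab)
  refine ⟨u, v, hu, hv, ?_⟩
  have e : (u * v) ^ 4 = c ^ 4 := by rw [mul_pow, ← hu, ← hv, hab]
  exact (Nat.pow_left_injective (by norm_num) e).symm

/-- Splitting `C * D = p ^ j * s ^ 4` with `C`, `D` coprime. -/
theorem ppow_split {p j C D s : ℕ} (hp : p.Prime) (h : Nat.Coprime C D)
    (hCD : C * D = p ^ j * s ^ 4) :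
    ∃ u v, s = u * v ∧ Nat.Coprime u v ∧
      ((C = p ^ j * u ^ 4 ∧ D = v ^ 4) ∨ (C = v ^ 4 ∧ D = p ^ j * u ^ 4)) := by
  have hpj : 0 < p ^ j := pow_pos hp.pos j
  by_cases hpD : p ∣ D
  · have hpC : ¬ p ∣ C := fun hpC => by
      have := Nat.dvd_gcd hpC hpD
      rw [h] at this
      exact hp.one_lt.ne' (Nat.dvd_one.mp this)
    have hcop : Nat.Coprime (p ^ j) C := Nat.Coprime.pow_left j ((hp.coprime_iff_not_dvd).mpr hpC)
    have hdvd : p ^ j ∣ D := (Nat.Coprime.dvd_mul_left hcop).mp ⟨s ^ 4, hCD⟩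
    obtain ⟨D', rfl⟩ := hdvd
    have hCD' : C * D' = s ^ 4 := by
      apply Nat.eq_of_mul_eq_mul_left hpj
      rw [← hCD]; ring
    have hcop' : Nat.Coprime C D' := Nat.Coprime.coprime_dvd_right (Dvd.intro_left _ rfl) h
    obtain ⟨v, u, hv, hu, hs⟩ := pow4_of_coprime_mul hcop' hCD'
    refine ⟨u, v, by rw [hs, mul_comm], ?_, Or.inr ⟨hv, by rw [hu]⟩⟩
    have := hcop'
    rw [hv, hu] at this
    exact (Nat.Coprime.coprime_dvd_left (dvd_pow_self v (by norm_num))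
      (Nat.Coprime.coprime_dvd_right (dvd_pow_self u (by norm_num)) this)).symm
  · have hcop : Nat.Coprime (p ^ j) D := Nat.Coprime.pow_left j ((hp.coprime_iff_not_dvd).mpr hpD)
    have hdvd : p ^ j ∣ C := (Nat.Coprime.dvd_mul_right hcop).mp ⟨s ^ 4, hCD⟩
    obtain ⟨C', rfl⟩ := hdvd
    have hCD' : C' * D = s ^ 4 := by
      apply Nat.eq_of_mul_eq_mul_left hpj
      rw [← hCD]; ring
    have hcop' : Nat.Coprime C' D := Nat.Coprime.coprime_dvd_left (Dvd.intro_left _ rfl) h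
    obtain ⟨u, v, hu, hv, hs⟩ := pow4_of_coprime_mul hcop' hCD'
    refine ⟨u, v, hs, ?_, Or.inl ⟨by rw [hu], hv⟩⟩
    have := hcop'
    rw [hv, hu] at this
    exact Nat.Coprime.coprime_dvd_left (dvd_pow_self u (by norm_num))
      (Nat.Coprime.coprime_dvd_right (dvd_pow_self v (by norm_num)) this)

/-- Splitting `A * B = 343 e⁴` when `gcd A B` is prime to `e`. -/
theorem split343 {A B e : ℕ} (he : 0 < e) (hAB : A * B = 343 * e ^ 4)
    (hg : Nat.Coprime (Nat.gcd A B) e) :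
    ∃ u v, e = u * v ∧
      ((A = 343 * u ^ 4 ∧ B = v ^ 4 ∧ Nat.Coprime u v) ∨ (A = v ^ 4 ∧ B = 343 * u ^ 4) ∨
        (A = 49 * u ^ 4 ∧ B = 7 * v ^ 4) ∨
        (A = 7 * v ^ 4 ∧ B = 49 * u ^ 4 ∧ Nat.Coprime v (7 * u))) := by
  have h7 : Nat.Prime 7 := by norm_num
  have hA0 : 0 < A := by
    rcases Nat.eq_zero_or_pos A with h | h
    · exfalso
      rw [h, zero_mul] at hAB
      have : 0 < 343 * e ^ 4 := by positivity
      omega
    · exact h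
  have hgpos : 0 < Nat.gcd A B := Nat.gcd_pos_of_pos_left _ hA0
  -- `g² ∣ 343`
  have hg2 : (Nat.gcd A B) ^ 2 ∣ 343 := by
    have h1 : (Nat.gcd A B) ^ 2 ∣ A * B := by
      rw [sq]; exact Nat.mul_dvd_mul (Nat.gcd_dvd_left A B) (Nat.gcd_dvd_right A B)
    rw [hAB] at h1
    have h2 : Nat.Coprime ((Nat.gcd A B) ^ 2) (e ^ 4) := Nat.Coprime.pow 2 4 hg
    exact Nat.Coprime.dvd_of_dvd_mul_right h2 h1
  have hg17 : Nat.gcd A B = 1 ∨ Nat.gcd A B = 7 := by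
    have hle : Nat.gcd A B ≤ 18 := by
      by_contra hlt
      have h1 : 19 ≤ Nat.gcd A B := by omega
      have h2 : (Nat.gcd A B) ^ 2 ≤ 343 := Nat.le_of_dvd (by norm_num) hg2
      nlinarith
    generalize Nat.gcd A B = g at hg2 hle hgpos
    interval_cases g <;> first | (left; rfl) | (right; rfl) | (exfalso; revert hg2; decide)
  rcases hg17 with hg1 | hg7
  · obtain ⟨u, v, huv, hcop, h | h⟩ := ppow_split (p := 7) (j := 3) (s := e) h7 hg1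
      (by rw [hAB]; norm_num)
    · exact ⟨u, v, huv, Or.inl ⟨by rw [h.1]; norm_num, h.2, hcop⟩⟩
    · exact ⟨u, v, huv, Or.inr (Or.inl ⟨h.1, by rw [h.2]; norm_num⟩)⟩
  · obtain ⟨A', hA'⟩ : 7 ∣ A := hg7 ▸ Nat.gcd_dvd_left A B
    obtain ⟨B', hB'⟩ : 7 ∣ B := hg7 ▸ Nat.gcd_dvd_right A B
    have hcop' : Nat.Coprime A' B' := by
      have := Nat.coprime_div_gcd_div_gcd hgpos
      rw [hg7, hA', hB'] at this
      simpa using this
    have hAB' : A' * B' = 7 ^ 1 * e ^ 4 := by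
      have : 49 * (A' * B') = 49 * (7 ^ 1 * e ^ 4) := by
        rw [hA', hB'] at hAB
        linarith
      exact Nat.eq_of_mul_eq_mul_left (by norm_num) this
    obtain ⟨u, v, huv, hcop, h | h⟩ := ppow_split (p := 7) (j := 1) h7 hcop' hAB'
    · refine ⟨u, v, huv, Or.inr (Or.inr (Or.inl ⟨?_, ?_⟩))⟩
      · rw [hA', h.1]; ring
      · rw [hB', h.2]
    · refine ⟨u, v, huv, Or.inr (Or.inr (Or.inr ⟨?_, ?_, ?_⟩))⟩
      · rw [hA', h.1]
      · rw [hB', h.2]; ring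
      · have := hcop'
        rw [h.1, h.2] at this
        have h2 : Nat.Coprime v (7 ^ 1 * u ^ 4) :=
          Nat.Coprime.coprime_dvd_left (dvd_pow_self v (by norm_num)) this
        exact Nat.Coprime.coprime_dvd_right
          (show 7 * u ∣ 7 ^ 1 * u ^ 4 from by
            rw [pow_one]; exact Nat.mul_dvd_mul_left 7 (dvd_pow_self u (by norm_num))) h2

theorem mod16_b : ∀ u v w : ZMod 16, 343 * u ^ 4 = v ^ 4 + w ^ 2 + 26 * u ^ 2 * v ^ 2 →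
    (w.val % 2 = 1 ∨ (u.val % 2 = 1 ∧ v.val % 2 = 1)) → False := by decide

theorem mod16_c : ∀ u v w : ZMod 16, 7 * v ^ 4 = 49 * u ^ 4 + w ^ 2 + 26 * u ^ 2 * v ^ 2 →
    (w.val % 2 = 1 ∨ (u.val % 2 = 1 ∧ v.val % 2 = 1)) → False := by decide

theorem bad_b {u v w : ℕ} (h : 343 * u ^ 4 = v ^ 4 + w ^ 2 + 26 * u ^ 2 * v ^ 2)
    (hp : w % 2 = 1 ∨ (u % 2 = 1 ∧ v % 2 = 1)) : False := by
  apply mod16_b (u : ZMod 16) (v : ZMod 16) (w : ZMod 16)
  · exact_mod_cast congrArg (Nat.cast : ℕ → ZMod 16) h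
  · simp only [ZMod.val_natCast, Nat.mod_mod_of_dvd _ (by norm_num : 2 ∣ 16)]
    exact hp

theorem bad_c {u v w : ℕ} (h : 7 * v ^ 4 = 49 * u ^ 4 + w ^ 2 + 26 * u ^ 2 * v ^ 2)
    (hp : w % 2 = 1 ∨ (u % 2 = 1 ∧ v % 2 = 1)) : False := by
  apply mod16_c (u : ZMod 16) (v : ZMod 16) (w : ZMod 16)
  · exact_mod_cast congrArg (Nat.cast : ℕ → ZMod 16) h
  · simp only [ZMod.val_natCast, Nat.mod_mod_of_dvd _ (by norm_num : 2 ∣ 16)]
    exact hp

theorem sq_mod8_of_odd {n : ℕ} (h : n % 2 = 1) : n ^ 2 % 8 = 1 := by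
  have : n % 8 = 1 ∨ n % 8 = 3 ∨ n % 8 = 5 ∨ n % 8 = 7 := by omega
  rcases this with h | h | h | h <;> simp [Nat.pow_mod, h]

theorem sq_mod4_of_odd {n : ℕ} (h : n % 2 = 1) : n ^ 2 % 4 = 1 := by
  have : n % 4 = 1 ∨ n % 4 = 3 := by omega
  rcases this with h | h <;> simp [Nat.pow_mod, h]

theorem sq_mod4_of_even {n : ℕ} (h : n % 2 = 0) : n ^ 2 % 4 = 0 := by
  have : n % 4 = 0 ∨ n % 4 = 2 := by omega
  rcases this with h | h <;> simp [Nat.pow_mod, h]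

theorem pos_of_mul_pos_left {s u v : ℕ} (hs : 0 < s) (h : s = u * v) : 0 < u := by
  rcases Nat.eq_zero_or_pos u with h0 | h0
  · rw [h0, zero_mul] at h; omega
  · exact h0

theorem pos_of_mul_pos_right {s u v : ℕ} (hs : 0 < s) (h : s = u * v) : 0 < v := by
  rcases Nat.eq_zero_or_pos v with h0 | h0
  · rw [h0, mul_zero] at h; omega
  · exact h0

theorem odd_of_mul_odd_left {s u v : ℕ} (hs : s % 2 = 1) (h : s = u * v) : u % 2 = 1 := by
  rcases Nat.mod_two_eq_zero_or_one u with h0 | h1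
  · exfalso
    have : (u * v) % 2 = 0 := by simp [Nat.mul_mod, h0]
    omega
  · exact h1

theorem odd_of_mul_odd_right {s u v : ℕ} (hs : s % 2 = 1) (h : s = u * v) : v % 2 = 1 := by
  rcases Nat.mod_two_eq_zero_or_one v with h0 | h1
  · exfalso
    have : (u * v) % 2 = 0 := by simp [Nat.mul_mod, h0]
    omega
  · exact h1

/-- Second descent step, odd case. -/
theorem step2_odd {s τ μ : ℕ} (hs : 0 < s) (hsodd : s % 2 = 1) (hτodd : τ % 2 = 1)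
    (hc : Nat.Coprime s τ) (h : τ ^ 4 = 343 * s ^ 4 + 4 * μ ^ 2 + 26 * s ^ 2 * τ ^ 2) :
    ∃ u v, 0 < u ∧ 0 < v ∧ Nat.Coprime u v ∧ s = u * v ∧
      τ ^ 2 = 32 * u ^ 4 + 13 * u ^ 2 * v ^ 2 + 4 * v ^ 4 := by
  have hs4 : 0 < s ^ 4 := by positivity
  have h13 : 13 * s ^ 2 < τ ^ 2 := by
    by_contra hle
    push Not at hle
    have h1 : τ ^ 2 * τ ^ 2 ≤ 13 * s ^ 2 * τ ^ 2 := Nat.mul_le_mul_right _ hle
    nlinarith [h1, h]
  obtain ⟨Q, hQ⟩ := Nat.exists_eq_add_of_le h13.le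
  have hQ2 : Q ^ 2 = 4 * μ ^ 2 + 512 * s ^ 4 := by
    have e : τ ^ 4 = (τ ^ 2) ^ 2 := by ring
    rw [e, hQ] at h
    nlinarith [h]
  have hs8 := sq_mod8_of_odd hsodd
  have hτ8 := sq_mod8_of_odd hτodd
  have hQ8 : Q % 8 = 4 := by omega
  obtain ⟨k, hk⟩ : ∃ k, Q = 4 * k := ⟨Q / 4, by omega⟩
  have hkodd : k % 2 = 1 := by omega
  subst hk
  have h1 : 4 * k ^ 2 = μ ^ 2 + 128 * s ^ 4 := by nlinarith [hQ2]
  have hμeven : μ % 2 = 0 := by
    by_contra hodd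
    have := sq_mod4_of_odd (n := μ) (by omega)
    omega
  obtain ⟨m, hm⟩ : ∃ m, μ = 2 * m := ⟨μ / 2, by omega⟩
  subst hm
  have h2 : k ^ 2 = m ^ 2 + 32 * s ^ 4 := by nlinarith [h1]
  have hmodd : m % 2 = 1 := by
    by_contra heven
    have h3 := sq_mod4_of_even (n := m) (by omega)
    have h4 := sq_mod4_of_odd hkodd
    omega
  have hmk : m < k := by
    by_contra hle
    push Not at hle
    have : k ^ 2 ≤ m ^ 2 := Nat.pow_le_pow_left hle 2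
    omega
  obtain ⟨C, hC⟩ : ∃ C, k = m + 2 * C := ⟨(k - m) / 2, by omega⟩
  have hCD : C * (m + C) = 2 ^ 3 * s ^ 4 := by
    subst hC
    nlinarith [h2]
  have hcop : Nat.Coprime C (m + C) := by
    apply Nat.coprime_of_dvd
    intro q hq hqC hqD
    have hqk : q ∣ k := by
      have h3 : k = C + (m + C) := by omega
      rw [h3]; exact Nat.dvd_add hqC hqD
    have hq2 : q ≠ 2 := by
      rintro rfl
      omega
    have hqs : q ∣ s := by
      have h3 : q ∣ 2 ^ 3 * s ^ 4 := hCD ▸ Dvd.dvd.mul_right hqC _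
      rcases (Nat.Prime.dvd_mul hq).mp h3 with h4 | h4
      · exact absurd ((Nat.prime_dvd_prime_iff_eq hq Nat.prime_two).mp (hq.dvd_of_dvd_pow h4)) hq2
      · exact hq.dvd_of_dvd_pow h4
    have hqτ : q ∣ τ := by
      have h3 : q ∣ τ ^ 2 := by
        rw [hQ]
        exact Dvd.dvd.add (Dvd.dvd.mul_left (Dvd.dvd.pow hqs two_ne_zero) _)
          (Dvd.dvd.mul_left hqk _)
      exact hq.dvd_of_dvd_pow h3
    have h3 := Nat.dvd_gcd hqs hqτ
    rw [hc] at h3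
    exact hq.one_lt.ne' (Nat.dvd_one.mp h3)
  obtain ⟨u, v, hsuv, hcuv, hcase⟩ := ppow_split Nat.prime_two hcop hCD
  refine ⟨u, v, pos_of_mul_pos_left hs hsuv, pos_of_mul_pos_right hs hsuv, hcuv, hsuv, ?_⟩
  have hk' : k = 2 ^ 3 * u ^ 4 + v ^ 4 := by
    rcases hcase with ⟨h3, h4⟩ | ⟨h3, h4⟩ <;> omega
  rw [hQ, hk', hsuv]; ring

/-- Second descent step, even case. -/
theorem step2_even {s τ μ : ℕ} (hs : 0 < s) (hμ : μ % 2 = 1)
    (hc : Nat.Coprime s τ) (h : τ ^ 4 = 343 * s ^ 4 + μ ^ 2 + 26 * s ^ 2 * τ ^ 2) :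
    ∃ u v, 0 < u ∧ 0 < v ∧ Nat.Coprime u v ∧ v % 2 = 1 ∧ s = u * v ∧
      τ ^ 2 = 128 * u ^ 4 + 13 * u ^ 2 * v ^ 2 + v ^ 4 := by
  have hs4 : 0 < s ^ 4 := by positivity
  have h13 : 13 * s ^ 2 < τ ^ 2 := by
    by_contra hle
    push Not at hle
    have h1 : τ ^ 2 * τ ^ 2 ≤ 13 * s ^ 2 * τ ^ 2 := Nat.mul_le_mul_right _ hle
    nlinarith [h1, h]
  obtain ⟨Q, hQ⟩ := Nat.exists_eq_add_of_le h13.le
  have hQ2 : Q ^ 2 = μ ^ 2 + 512 * s ^ 4 := by
    have e : τ ^ 4 = (τ ^ 2) ^ 2 := by ring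
    rw [e, hQ] at h
    nlinarith [h]
  have hμ4 := sq_mod4_of_odd hμ
  have hQodd : Q % 2 = 1 := by
    by_contra heven
    have h3 := sq_mod4_of_even (n := Q) (by omega)
    omega
  have hμQ : μ < Q := by
    by_contra hle
    push Not at hle
    have : Q ^ 2 ≤ μ ^ 2 := Nat.pow_le_pow_left hle 2
    omega
  obtain ⟨C, hC⟩ : ∃ C, Q = μ + 2 * C := ⟨(Q - μ) / 2, by omega⟩
  have hCD : C * (μ + C) = 2 ^ 7 * s ^ 4 := by
    subst hC
    nlinarith [hQ2]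
  have hcop : Nat.Coprime C (μ + C) := by
    apply Nat.coprime_of_dvd
    intro q hq hqC hqD
    have hqQ : q ∣ Q := by
      have h3 : Q = C + (μ + C) := by omega
      rw [h3]; exact Nat.dvd_add hqC hqD
    have hq2 : q ≠ 2 := by
      rintro rfl
      omega
    have hqs : q ∣ s := by
      have h3 : q ∣ 2 ^ 7 * s ^ 4 := hCD ▸ Dvd.dvd.mul_right hqC _
      rcases (Nat.Prime.dvd_mul hq).mp h3 with h4 | h4
      · exact absurd ((Nat.prime_dvd_prime_iff_eq hq Nat.prime_two).mp (hq.dvd_of_dvd_pow h4)) hq2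
      · exact hq.dvd_of_dvd_pow h4
    have hqτ : q ∣ τ := by
      have h3 : q ∣ τ ^ 2 := by
        rw [hQ]
        exact Dvd.dvd.add (Dvd.dvd.mul_left (Dvd.dvd.pow hqs two_ne_zero) _) hqQ
      exact hq.dvd_of_dvd_pow h3
    have h3 := Nat.dvd_gcd hqs hqτ
    rw [hc] at h3
    exact hq.one_lt.ne' (Nat.dvd_one.mp h3)
  obtain ⟨u, v, hsuv, hcuv, hcase⟩ := ppow_split Nat.prime_two hcop hCD
  have hQ' : Q = 2 ^ 7 * u ^ 4 + v ^ 4 := by
    rcases hcase with ⟨h3, h4⟩ | ⟨h3, h4⟩ <;> omega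
  have hvodd : v % 2 = 1 := by
    rcases Nat.mod_two_eq_zero_or_one v with h0 | h1
    · exfalso
      have : v ^ 4 % 2 = 0 := by simp [Nat.pow_mod, h0]
      omega
    · exact h1
  refine ⟨u, v, pos_of_mul_pos_left hs hsuv, pos_of_mul_pos_right hs hsuv, hcuv, hvodd, hsuv, ?_⟩
  rw [hQ, hQ', hsuv]; ring

theorem eq_of_sq_eq {a b : ℕ} (h : a ^ 2 = b ^ 2) : a = b :=
  Nat.pow_left_injective two_ne_zero h

/-- The induction hypothesis of the descent. -/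
def IH (e : ℕ) : Prop :=
  ∀ e' < e, ∀ M' N' : ℕ, 0 < M' → 0 < e' → Nat.Coprime M' e' →
    M' ^ 4 + 13 * M' ^ 2 * e' ^ 2 + 128 * e' ^ 4 = N' ^ 2 → M' = 2 ∧ e' = 1

/-- Descent step for odd `e`. -/
theorem step_odd (e : ℕ) (ih : IH e) (M N : ℕ) (hM : 0 < M) (he : 0 < e)
    (hc : Nat.Coprime M e) (h : M ^ 4 + 13 * M ^ 2 * e ^ 2 + 128 * e ^ 4 = N ^ 2)
    (hodd : e % 2 = 1) : M = 2 ∧ e = 1 := by
  have he4 : 0 < e ^ 4 := by positivity
  have hlt : 2 * M ^ 2 + 13 * e ^ 2 < 2 * N := by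
    by_contra hle
    push Not at hle
    have h1 : (2 * N) ^ 2 ≤ (2 * M ^ 2 + 13 * e ^ 2) ^ 2 := Nat.pow_le_pow_left hle 2
    nlinarith [h1, h]
  obtain ⟨A, hA⟩ := Nat.exists_eq_add_of_le hlt.le
  have hAB : A * (A + 2 * (2 * M ^ 2 + 13 * e ^ 2)) = 343 * e ^ 4 := by
    have h1 : (2 * N) ^ 2 = 4 * N ^ 2 := by ring
    rw [hA, ← h] at h1
    nlinarith [h1]
  have hg : Nat.Coprime (Nat.gcd A (A + 2 * (2 * M ^ 2 + 13 * e ^ 2))) e := by
    apply Nat.coprime_of_dvd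
    intro q hq hqg hqe
    have hqA : q ∣ A := hqg.trans (Nat.gcd_dvd_left _ _)
    have hqB : q ∣ A + 2 * (2 * M ^ 2 + 13 * e ^ 2) := hqg.trans (Nat.gcd_dvd_right _ _)
    have hq2 : q ≠ 2 := by
      rintro rfl
      omega
    have h1 : q ∣ 2 * (2 * M ^ 2 + 13 * e ^ 2) := (Nat.dvd_add_right hqA).mp hqB
    have h2 : q ∣ 2 ^ 2 * M ^ 2 := by
      have e1 : 2 * (2 * M ^ 2 + 13 * e ^ 2) = 2 ^ 2 * M ^ 2 + 26 * e ^ 2 := by ring
      rw [e1] at h1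
      exact (Nat.dvd_add_left (Dvd.dvd.mul_left (Dvd.dvd.pow hqe two_ne_zero) _)).mp h1
    have h3 : q ∣ M := by
      rcases (Nat.Prime.dvd_mul hq).mp h2 with h4 | h4
      · exact absurd ((Nat.prime_dvd_prime_iff_eq hq Nat.prime_two).mp (hq.dvd_of_dvd_pow h4)) hq2
      · exact hq.dvd_of_dvd_pow h4
    have h4 := Nat.dvd_gcd h3 hqe
    rw [hc] at h4
    exact hq.one_lt.ne' (Nat.dvd_one.mp h4)
  obtain ⟨u, v, huv, hcase⟩ := split343 he hAB hg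
  have hu0 : 0 < u := pos_of_mul_pos_left he huv
  have hv0 : 0 < v := pos_of_mul_pos_right he huv
  have huodd : u % 2 = 1 := odd_of_mul_odd_left hodd huv
  have hvodd : v % 2 = 1 := odd_of_mul_odd_right hodd huv
  subst huv
  rcases hcase with ⟨hA', hB', hcuv⟩ | ⟨hA', hB'⟩ | ⟨hA', hB'⟩ | ⟨hA', hB', hcuv⟩
  · -- good case 1
    subst hA'
    have heq : v ^ 4 = 343 * u ^ 4 + 4 * M ^ 2 + 26 * u ^ 2 * v ^ 2 := by nlinarith [hB']
    obtain ⟨u₁, v₁, hu₁, hv₁, hc₁, hu, hv2⟩ := step2_odd hu0 huodd hvodd hcuv heq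
    have hu₁odd : u₁ % 2 = 1 := odd_of_mul_odd_left huodd hu
    have hv2' : 2 ≤ v := by
      by_contra hlt
      have h1 : v = 1 := by omega
      subst h1
      have : 0 < u₁ ^ 4 := by positivity
      omega
    have hlt' : u₁ < u * v := by
      subst hu
      have h1 : u₁ * 1 * 2 ≤ u₁ * v₁ * v := Nat.mul_le_mul (Nat.mul_le_mul_left _ hv₁) hv2'
      omega
    have hcop' : Nat.Coprime (2 * v₁) u₁ :=
      Nat.Coprime.mul_left (Nat.coprime_two_left.mpr (Nat.odd_iff.mpr hu₁odd)) hc₁.symm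
    have hsol : (2 * v₁) ^ 4 + 13 * (2 * v₁) ^ 2 * u₁ ^ 2 + 128 * u₁ ^ 4 = (2 * v) ^ 2 := by
      nlinarith [hv2]
    obtain ⟨h1, h2⟩ := ih u₁ hlt' (2 * v₁) (2 * v) (by omega) hu₁ hcop' hsol
    have hv₁1 : v₁ = 1 := by omega
    subst h2 hv₁1
    have hv7 : v = 7 := eq_of_sq_eq (by rw [hv2]; norm_num)
    subst hv7 hu
    have hM14 : M = 14 := eq_of_sq_eq (by norm_num at heq ⊢; omega)
    subst hM14
    exact absurd hc (by decide)
  · -- bad case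
    exfalso
    subst hA'
    have heq : 343 * u ^ 4 = v ^ 4 + (2 * M) ^ 2 + 26 * u ^ 2 * v ^ 2 := by nlinarith [hB']
    exact bad_b heq (Or.inr ⟨huodd, hvodd⟩)
  · -- bad case
    exfalso
    subst hA'
    have heq : 7 * v ^ 4 = 49 * u ^ 4 + (2 * M) ^ 2 + 26 * u ^ 2 * v ^ 2 := by nlinarith [hB']
    exact bad_c heq (Or.inr ⟨huodd, hvodd⟩)
  · -- good case 2
    subst hA'
    have heq : 49 * u ^ 4 = 7 * v ^ 4 + 4 * M ^ 2 + 26 * u ^ 2 * v ^ 2 := by nlinarith [hB']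
    have heq' : (7 * u) ^ 4 = 343 * v ^ 4 + 4 * (7 * M) ^ 2 + 26 * v ^ 2 * (7 * u) ^ 2 := by
      nlinarith [heq]
    have h7uodd : (7 * u) % 2 = 1 := by omega
    obtain ⟨u₁, v₁, hu₁, hv₁, hc₁, hv, hu2⟩ := step2_odd hv0 hvodd h7uodd hcuv heq'
    have hu₁odd : u₁ % 2 = 1 := odd_of_mul_odd_left hvodd hv
    have hcop' : Nat.Coprime (2 * v₁) u₁ :=
      Nat.Coprime.mul_left (Nat.coprime_two_left.mpr (Nat.odd_iff.mpr hu₁odd)) hc₁.symm
    have hsol : (2 * v₁) ^ 4 + 13 * (2 * v₁) ^ 2 * u₁ ^ 2 + 128 * u₁ ^ 4 = (14 * u) ^ 2 := by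
      nlinarith [hu2]
    subst hv
    have hle : u₁ ≤ u * (u₁ * v₁) := by
      have h1 : 1 * (u₁ * 1) ≤ u * (u₁ * v₁) := Nat.mul_le_mul hu0 (Nat.mul_le_mul_left _ hv₁)
      omega
    rcases Nat.lt_or_eq_of_le hle with hlt' | heq1
    · exfalso
      obtain ⟨h1, h2⟩ := ih u₁ hlt' (2 * v₁) (14 * u) (by omega) hu₁ hcop' hsol
      have hv₁1 : v₁ = 1 := by omega
      subst h2 hv₁1
      have hu1 : 7 * u = 7 := eq_of_sq_eq (by rw [hu2]; norm_num)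
      have hu1' : u = 1 := by omega
      subst hu1'
      omega
    · -- `u₁ = u * (u₁ * v₁)`, so `u = v₁ = 1`
      have h1 : u * v₁ = 1 := by
        have h2 : u₁ * 1 = u₁ * (u * v₁) := by rw [mul_one]; nth_rewrite 1 [heq1]; ring
        exact (Nat.eq_of_mul_eq_mul_left hu₁ h2).symm
      have hu1 : u = 1 := Nat.eq_one_of_mul_eq_one_right h1
      have hv1 : v₁ = 1 := Nat.eq_one_of_mul_eq_one_left h1
      subst hu1 hv1
      have hu₁1 : u₁ = 1 := by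
        by_contra hne
        have h2 : 2 ≤ u₁ := by omega
        have h3 : 2 ^ 4 ≤ u₁ ^ 4 := Nat.pow_le_pow_left h2 4
        norm_num at hu2
        omega
      subst hu₁1
      have hM2 : M = 2 := eq_of_sq_eq (by norm_num at heq ⊢; omega)
      exact ⟨hM2, by norm_num⟩

/-- Descent step for even `e`. -/
theorem step_even (e : ℕ) (ih : IH e) (M N : ℕ) (he : 0 < e)
    (hc : Nat.Coprime M e) (h : M ^ 4 + 13 * M ^ 2 * e ^ 2 + 128 * e ^ 4 = N ^ 2)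
    (heven : e % 2 = 0) : M = 2 ∧ e = 1 := by
  exfalso
  obtain ⟨f, hf⟩ : ∃ f, e = 2 * f := ⟨e / 2, by omega⟩
  subst hf
  have hf0 : 0 < f := by omega
  have hf4 : 0 < f ^ 4 := by positivity
  have hModd : M % 2 = 1 := by
    rcases Nat.mod_two_eq_zero_or_one M with h0 | h1
    · exfalso
      have h2 : 2 ∣ Nat.gcd M (2 * f) := Nat.dvd_gcd (by omega) (Dvd.intro _ rfl)
      rw [hc] at h2
      omega
    · exact h1
  have hM4 := sq_mod4_of_odd hModd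
  have hNodd : N % 2 = 1 := by
    rcases Nat.mod_two_eq_zero_or_one N with h0 | h1
    · exfalso
      have h2 := sq_mod4_of_even h0
      have h3 : M ^ 4 = (M ^ 2) ^ 2 := by ring
      have h4 : (M ^ 2) % 2 = 1 := by omega
      have h5 := sq_mod4_of_odd h4
      have h6 : 13 * M ^ 2 * (2 * f) ^ 2 + 128 * (2 * f) ^ 4 =
          4 * (13 * M ^ 2 * f ^ 2 + 512 * f ^ 4) := by ring
      omega
    · exact h1
  have hlt : M ^ 2 + 26 * f ^ 2 < N := by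
    by_contra hle
    push Not at hle
    have h1 : N ^ 2 ≤ (M ^ 2 + 26 * f ^ 2) ^ 2 := Nat.pow_le_pow_left hle 2
    nlinarith [h1, h]
  obtain ⟨A, hA⟩ : ∃ A, N = M ^ 2 + 26 * f ^ 2 + 2 * A :=
    ⟨(N - (M ^ 2 + 26 * f ^ 2)) / 2, by omega⟩
  have hAB : A * (A + (M ^ 2 + 26 * f ^ 2)) = 343 * f ^ 4 := by
    rw [hA] at h
    nlinarith [h]
  have hg : Nat.Coprime (Nat.gcd A (A + (M ^ 2 + 26 * f ^ 2))) f := by
    apply Nat.coprime_of_dvd
    intro q hq hqg hqf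
    have hqA : q ∣ A := hqg.trans (Nat.gcd_dvd_left _ _)
    have hqB : q ∣ A + (M ^ 2 + 26 * f ^ 2) := hqg.trans (Nat.gcd_dvd_right _ _)
    have h1 : q ∣ M ^ 2 + 26 * f ^ 2 := (Nat.dvd_add_right hqA).mp hqB
    have h2 : q ∣ M ^ 2 :=
      (Nat.dvd_add_left (Dvd.dvd.mul_left (Dvd.dvd.pow hqf two_ne_zero) _)).mp h1
    have h3 : q ∣ M := hq.dvd_of_dvd_pow h2
    have h4 := Nat.dvd_gcd h3 (Dvd.dvd.mul_left hqf 2)
    rw [hc] at h4
    exact hq.one_lt.ne' (Nat.dvd_one.mp h4)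
  obtain ⟨u, v, huv, hcase⟩ := split343 hf0 hAB hg
  have hu0 : 0 < u := pos_of_mul_pos_left hf0 huv
  have hv0 : 0 < v := pos_of_mul_pos_right hf0 huv
  subst huv
  rcases hcase with ⟨hA', hB', hcuv⟩ | ⟨hA', hB'⟩ | ⟨hA', hB'⟩ | ⟨hA', hB', hcuv⟩
  · -- good case 1
    subst hA'
    have heq : v ^ 4 = 343 * u ^ 4 + M ^ 2 + 26 * u ^ 2 * v ^ 2 := by nlinarith [hB']
    obtain ⟨u₁, v₁, hu₁, hv₁, hc₁, hv₁odd, hu, hv2⟩ := step2_even hu0 hModd hcuv heq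
    have hlt' : u₁ < 2 * (u * v) := by
      subst hu
      have h1 : u₁ * 1 * 1 ≤ u₁ * v₁ * v := Nat.mul_le_mul (Nat.mul_le_mul_left _ hv₁) hv0
      omega
    have hsol : v₁ ^ 4 + 13 * v₁ ^ 2 * u₁ ^ 2 + 128 * u₁ ^ 4 = v ^ 2 := by
      nlinarith [hv2]
    obtain ⟨h1, h2⟩ := ih u₁ hlt' v₁ v hv₁ hu₁ hc₁.symm hsol
    omega
  · -- bad case
    subst hA'
    have heq : 343 * u ^ 4 = v ^ 4 + M ^ 2 + 26 * u ^ 2 * v ^ 2 := by nlinarith [hB']
    exact bad_b heq (Or.inl hModd)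
  · -- bad case
    subst hA'
    have heq : 7 * v ^ 4 = 49 * u ^ 4 + M ^ 2 + 26 * u ^ 2 * v ^ 2 := by nlinarith [hB']
    exact bad_c heq (Or.inl hModd)
  · -- good case 2
    subst hA'
    have heq : 49 * u ^ 4 = 7 * v ^ 4 + M ^ 2 + 26 * u ^ 2 * v ^ 2 := by nlinarith [hB']
    have heq' : (7 * u) ^ 4 = 343 * v ^ 4 + (7 * M) ^ 2 + 26 * v ^ 2 * (7 * u) ^ 2 := by
      nlinarith [heq]
    have h7Modd : (7 * M) % 2 = 1 := by omega
    obtain ⟨u₁, v₁, hu₁, hv₁, hc₁, hv₁odd, hv, hu2⟩ := step2_even hv0 h7Modd hcuv heq'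
    have hlt' : u₁ < 2 * (u * v) := by
      subst hv
      have h1 : 1 * (u₁ * 1) ≤ u * (u₁ * v₁) := Nat.mul_le_mul hu0 (Nat.mul_le_mul_left _ hv₁)
      omega
    have hsol : v₁ ^ 4 + 13 * v₁ ^ 2 * u₁ ^ 2 + 128 * u₁ ^ 4 = (7 * u) ^ 2 := by
      nlinarith [hu2]
    obtain ⟨h1, h2⟩ := ih u₁ hlt' v₁ (7 * u) hv₁ hu₁ hc₁.symm hsol
    omega

/-- The quartic `M⁴ + 13 M² e² + 128 e⁴ = N²` has the only primitive positive solution
`(M, e) = (2, 1)`. -/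
theorem main_nat : ∀ e M N : ℕ, 0 < M → 0 < e → Nat.Coprime M e →
    M ^ 4 + 13 * M ^ 2 * e ^ 2 + 128 * e ^ 4 = N ^ 2 → M = 2 ∧ e = 1 := by
  intro e
  induction e using Nat.strong_induction_on with
  | _ e ih =>
    intro M N hM he hc h
    rcases Nat.mod_two_eq_zero_or_one e with h0 | h1
    · exact step_even e ih M N he hc h h0
    · exact step_odd e ih M N hM he hc h h1

/-- A point whose `x`-coordinate is a nonzero rational square `q²` has `q² = 4`. -/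
theorem sq_case (q y : ℚ) (hq : q ≠ 0)
    (h : y ^ 2 = q ^ 2 * ((q ^ 2) ^ 2 + 13 * q ^ 2 + 128)) : q ^ 2 = 4 := by
  have hc0 : 0 < q.den := q.pos
  have hb0 : 0 < q.num.natAbs := Int.natAbs_pos.mpr (Rat.num_ne_zero.mpr hq)
  have hcop : Nat.Coprime q.num.natAbs q.den := q.reduced
  have hcq : (q.den : ℚ) ≠ 0 := by exact_mod_cast hc0.ne'
  have hq2 : q ^ 2 * (q.den : ℚ) ^ 2 = (q.num.natAbs : ℚ) ^ 2 := by
    have h1 : q * (q.den : ℚ) = (q.num : ℚ) := Rat.mul_den_eq_num q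
    have h2 : ((q.num.natAbs : ℕ) : ℚ) ^ 2 = (q.num : ℚ) ^ 2 := by
      rw [Nat.cast_natAbs, Int.cast_abs, sq_abs]
    rw [h2, ← h1]; ring
  have hsq : IsSquare ((q.num.natAbs ^ 4 + 13 * q.num.natAbs ^ 2 * q.den ^ 2
      + 128 * q.den ^ 4 : ℕ) : ℚ) := by
    refine ⟨y * (q.den : ℚ) ^ 2 / q, ?_⟩
    have e1 : y * (q.den : ℚ) ^ 2 / q * (y * (q.den : ℚ) ^ 2 / q) =
        ((q ^ 2) ^ 2 + 13 * q ^ 2 + 128) * (q.den : ℚ) ^ 4 := by
      have e2 : y * (q.den : ℚ) ^ 2 / q * (y * (q.den : ℚ) ^ 2 / q) =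
          y ^ 2 * (q.den : ℚ) ^ 4 / q ^ 2 := by
        field_simp
      rw [e2, h]
      field_simp
    rw [e1]
    push_cast
    linear_combination (-((q.num.natAbs : ℚ) ^ 2 + q ^ 2 * (q.den : ℚ) ^ 2
      + 13 * (q.den : ℚ) ^ 2)) * hq2
  rw [Rat.isSquare_natCast_iff] at hsq
  obtain ⟨N, hN⟩ := hsq
  obtain ⟨h1, h2⟩ := main_nat q.den q.num.natAbs N hb0 hc0 hcop (by rw [hN]; ring)
  rw [h1, h2] at hq2
  norm_num at hq2
  exact hq2

/-- The `x`-coordinate of a point with `x > 0` is a rational square or twice a rational square. -/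
theorem class_of_point (x y : ℚ) (hx : 0 < x) (h : y ^ 2 = x * (x ^ 2 + 13 * x + 128)) :
    ∃ q : ℚ, q ≠ 0 ∧ (x = q ^ 2 ∨ x = 2 * q ^ 2) := by
  obtain ⟨r, hr⟩ : ∃ r : ℕ, r = x.num.natAbs := ⟨_, rfl⟩
  obtain ⟨s, hs⟩ : ∃ s : ℕ, s = x.den := ⟨_, rfl⟩
  have hs0 : 0 < s := hs ▸ x.pos
  have hnum : 0 < x.num := Rat.num_pos.mpr hx
  have hr0 : 0 < r := hr ▸ Int.natAbs_pos.mpr hnum.ne'
  have hcop : Nat.Coprime r s := by rw [hr, hs]; exact x.reduced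
  have hsq0 : (s : ℚ) ≠ 0 := by exact_mod_cast hs0.ne'
  have hxs : x * (s : ℚ) = (r : ℚ) := by
    have h1 : x * (x.den : ℚ) = (x.num : ℚ) := Rat.mul_den_eq_num x
    rw [hs, h1, hr, Nat.cast_natAbs, abs_of_pos hnum]
  have hsq : IsSquare ((r * s * (r ^ 2 + 13 * r * s + 128 * s ^ 2) : ℕ) : ℚ) := by
    refine ⟨y * (s : ℚ) ^ 2, ?_⟩
    push_cast
    rw [← hxs]
    linear_combination (-(s : ℚ) ^ 4) * h
  rw [Rat.isSquare_natCast_iff] at hsq
  obtain ⟨w, hw⟩ := hsq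
  obtain ⟨a, b, hab, hsf⟩ := Nat.sq_mul_squarefree (r * s)
  have hrs0 : 0 < r * s := Nat.mul_pos hr0 hs0
  have hb0 : 0 < b := by
    rcases Nat.eq_zero_or_pos b with h0 | h0
    · rw [h0] at hab; simp at hab; omega
    · exact h0
  have ha0 : 0 < a := by
    rcases Nat.eq_zero_or_pos a with h0 | h0
    · rw [h0] at hab; simp at hab; omega
    · exact h0
  obtain ⟨R, hR⟩ : ∃ R : ℕ, R = r ^ 2 + 13 * r * s + 128 * s ^ 2 := ⟨_, rfl⟩
  rw [← hR, ← hab] at hw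
  have hbw : b ∣ w := by
    have h1 : b ^ 2 ∣ w ^ 2 := ⟨a * R, by rw [sq w, ← hw]; ring⟩
    exact (Nat.pow_dvd_pow_iff two_ne_zero).mp h1
  obtain ⟨z, rfl⟩ := hbw
  have haR : a * R = z ^ 2 := by
    apply Nat.eq_of_mul_eq_mul_left (pow_pos hb0 2)
    rw [← mul_assoc, hw]; ring
  have haz : a ∣ z := (hsf.dvd_pow_iff_dvd two_ne_zero).mp ⟨R, haR.symm⟩
  obtain ⟨z', rfl⟩ := haz
  have haR' : a ∣ R := by
    refine ⟨z' ^ 2, ?_⟩
    apply Nat.eq_of_mul_eq_mul_left ha0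
    rw [haR]; ring
  have hars : a ∣ r * s := ⟨b ^ 2, by rw [← hab]; ring⟩
  have hcas : Nat.Coprime a s := by
    apply Nat.coprime_of_dvd
    intro p hp hpa hps
    have hpR : p ∣ R := hpa.trans haR'
    have hpr2 : p ∣ r ^ 2 := by
      have e : R = r ^ 2 + (13 * r * s + 128 * s ^ 2) := by rw [hR]; ring
      rw [e] at hpR
      exact (Nat.dvd_add_left (Dvd.dvd.add (Dvd.dvd.mul_left hps _)
        (Dvd.dvd.mul_left (Dvd.dvd.pow hps two_ne_zero) _))).mp hpR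
    have h1 := Nat.dvd_gcd (hp.dvd_of_dvd_pow hpr2) hps
    rw [hcop] at h1
    exact hp.one_lt.ne' (Nat.dvd_one.mp h1)
  have har : a ∣ r := hcas.dvd_of_dvd_mul_right hars
  have ha128 : a ∣ 2 ^ 7 := by
    have h1 : a ∣ 2 ^ 7 * s ^ 2 := by
      have e : R = (r ^ 2 + 13 * r * s) + 2 ^ 7 * s ^ 2 := by rw [hR]; norm_num
      rw [e] at haR'
      exact (Nat.dvd_add_right (Dvd.dvd.add (Dvd.dvd.pow har two_ne_zero)
        (Dvd.dvd.mul_right (Dvd.dvd.mul_left har _) _))).mp haR'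
    exact (Nat.Coprime.pow_right 2 hcas).dvd_of_dvd_mul_right h1
  have ha12 : a = 1 ∨ a = 2 := by
    rw [Nat.dvd_prime_pow Nat.prime_two] at ha128
    obtain ⟨i, hi, rfl⟩ := ha128
    have hi1 : i ≤ 1 := by
      by_contra hlt
      have h3 : 2 * 2 ∣ 2 ^ i := by
        have h4 : 2 ^ 2 ∣ 2 ^ i := pow_dvd_pow 2 (by omega)
        simpa using h4
      have h5 := hsf 2 h3
      rw [Nat.isUnit_iff] at h5
      omega
    interval_cases i <;> simp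
  have hbq : (b : ℚ) ≠ 0 := by exact_mod_cast hb0.ne'
  refine ⟨(b : ℚ) / s, div_ne_zero hbq hsq0, ?_⟩
  have hx' : x = (a : ℚ) * ((b : ℚ) / s) ^ 2 := by
    have h1 : (x * s) * s = (b : ℚ) ^ 2 * a := by
      rw [hxs]; exact_mod_cast hab.symm
    field_simp
    linear_combination h1
  rcases ha12 with rfl | rfl
  · left; rw [hx']; push_cast; ring
  · right; rw [hx']; push_cast; ring

end Fermat.Agent.S10.D7

namespace Fermat.Agent.S10

/-- (D7) The rational points of `y² = x (x² + 13 x + 128)` (the curve 14a, `E(ℚ) ≅ ℤ/6`). -/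
theorem desc7 (x y : ℚ) (h : y ^ 2 = x * (x ^ 2 + 13 * x + 128)) : x = 0 ∨ x = 4 ∨ x = 32 := by
  by_cases hx0 : x = 0
  · exact Or.inl hx0
  right
  have hx : 0 < x := by
    rcases lt_or_gt_of_ne hx0 with hneg | hpos
    · exfalso
      have h1 : 0 < x ^ 2 + 13 * x + 128 := by nlinarith [sq_nonneg (2 * x + 13)]
      have h2 : x * (x ^ 2 + 13 * x + 128) < 0 := mul_neg_of_neg_of_pos hneg h1
      nlinarith [sq_nonneg y]
    · exact hpos
  obtain ⟨q, hq, hcase | hcase⟩ := D7.class_of_point x y hx h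
  · left
    have h1 := D7.sq_case q y hq (by rw [h, hcase])
    rw [hcase, h1]
  · right
    have h8q : (8 / q) ≠ 0 := div_ne_zero (by norm_num) hq
    have h1 := D7.sq_case (8 / q) (128 * y / x ^ 2) h8q (by
      rw [div_pow, mul_pow, h, hcase]
      field_simp
      ring)
    rw [hcase]
    field_simp at h1
    linarith

end Fermat.Agent.S10
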