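import Mathlib

set_option autoImplicit false

namespace Fermat.Agent.S10.DescCommon

theorem sq_mod_two (n : ℕ) : n ^ 2 % 2 = n % 2 := by
  rcases Nat.mod_two_eq_zero_or_one n with h | h <;> simp [Nat.pow_mod, h]

theorem pow4_of_coprime_mul {a b c : ℕ} (h : Nat.Coprime a b) (hab : a * b = c ^ 4) :
    ∃ d, a = d ^ 4 :=
  exists_eq_pow_of_mul_eq_pow (Nat.isUnit_iff.mpr h) hab

theorem sq_of_coprime_mul {a b c : ℕ} (h : Nat.Coprime a b) (hab : a * b = c ^ 2) :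
    ∃ d, a = d ^ 2 :=
  exists_eq_pow_of_mul_eq_pow (Nat.isUnit_iff.mpr h) hab

/-- coprime factors of `w^4`. -/
theorem split_pow4 {P Q w : ℕ} (hc : Nat.Coprime P Q) (h : P * Q = w ^ 4) :
    ∃ α β : ℕ, α * β = w ∧ P = α ^ 4 ∧ Q = β ^ 4 := by
  obtain ⟨α, hα⟩ := pow4_of_coprime_mul hc h
  obtain ⟨β, hβ⟩ := pow4_of_coprime_mul hc.symm (by rw [mul_comm]; exact h)
  refine ⟨α, β, ?_, hα, hβ⟩
  have : (α * β) ^ 4 = w ^ 4 := by rw [mul_pow, ← hα, ← hβ, h]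
  exact Nat.pow_left_injective (by norm_num) this

/-- coprime factors of `π^k * w^4`. -/
theorem split_of_prime_pow {π k : ℕ} (hπ : π.Prime) {P Q w : ℕ} (hc : Nat.Coprime P Q)
    (h : P * Q = π ^ k * w ^ 4) :
    ∃ α β : ℕ, α * β = w ∧
      ((P = π ^ k * α ^ 4 ∧ Q = β ^ 4) ∨ (P = α ^ 4 ∧ Q = π ^ k * β ^ 4)) := by
  have hpk : 0 < π ^ k := pow_pos hπ.pos k
  by_cases hπQ : π ∣ Q
  · have hπP : ¬ π ∣ P := by
      intro hP
      have := Nat.dvd_gcd hP hπQ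
      rw [hc] at this
      exact hπ.one_lt.ne' (Nat.dvd_one.mp this)
    have hcop : Nat.Coprime (π ^ k) P := Nat.Coprime.pow_left k ((Nat.Prime.coprime_iff_not_dvd hπ).mpr hπP)
    have hdvd : π ^ k ∣ Q := hcop.dvd_of_dvd_mul_left ⟨w ^ 4, h⟩
    obtain ⟨Q', rfl⟩ := hdvd
    have h' : P * Q' = w ^ 4 := by
      apply Nat.eq_of_mul_eq_mul_left hpk
      rw [← h]; ring
    have hc' : Nat.Coprime P Q' := Nat.Coprime.coprime_dvd_right (Dvd.intro_left _ rfl) hc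
    obtain ⟨α, β, hab, hα, hβ⟩ := split_pow4 hc' h'
    exact ⟨α, β, hab, Or.inr ⟨hα, by rw [hβ]⟩⟩
  · have hcop : Nat.Coprime (π ^ k) Q := Nat.Coprime.pow_left k ((Nat.Prime.coprime_iff_not_dvd hπ).mpr hπQ)
    have hdvd : π ^ k ∣ P := hcop.dvd_of_dvd_mul_right ⟨w ^ 4, h⟩
    obtain ⟨P', rfl⟩ := hdvd
    have h' : P' * Q = w ^ 4 := by
      apply Nat.eq_of_mul_eq_mul_left hpk
      rw [← h]; ring
    have hc' : Nat.Coprime P' Q := Nat.Coprime.coprime_dvd_left (Dvd.intro_left _ rfl) hc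
    obtain ⟨α, β, hab, hα, hβ⟩ := split_pow4 hc' h'
    exact ⟨α, β, hab, Or.inl ⟨by rw [hα], hβ⟩⟩

theorem mod8_fact : ∀ M u v : ZMod 8, M ^ 2 + 3 * u ^ 2 * v ^ 2 + v ^ 4 = u ^ 4 →
    4 * u ≠ 0 → 4 * v ≠ 0 → False := by decide

theorem four_mul_ne_zero_of_odd {u : ℕ} (h : u % 2 = 1) : 4 * ((u : ℕ) : ZMod 8) ≠ 0 := by
  intro h0
  have h1 : (((4 * u : ℕ)) : ZMod 8) = 0 := by push_cast; exact h0
  have h2 : 8 ∣ 4 * u := (ZMod.natCast_eq_zero_iff _ 8).mp h1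
  omega

theorem lt_of_sq_lt_sq' {a b : ℕ} (h : a ^ 2 < b ^ 2) : a < b :=
  lt_of_pow_lt_pow_left₀ 2 (Nat.zero_le _) h

/-- The hypotheses on the pair `(c, b)` used in the descent. -/
structure Hyp (c b : ℕ) : Prop where
  hb : b = c ^ 2 + 4
  hc8 : c % 8 = 3
  hsplit : ∀ P Q w : ℕ, Nat.Coprime P Q → P * Q = b * w ^ 4 →
    ∃ α β : ℕ, α * β = w ∧ ((P = b * α ^ 4 ∧ Q = β ^ 4) ∨ (P = α ^ 4 ∧ Q = b * β ^ 4))
  hres : ∀ ℓ u v T : ℕ, ℓ.Prime → ℓ ∣ b → T + c * v ^ 2 = 2 * u ^ 2 → ℓ ∣ T → ℓ ∣ u ∧ ℓ ∣ v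

/-- common coprimality argument. -/
theorem coprime_PQ {c b : ℕ} (H : Hyp c b) {u v T P Q : ℕ} (huv : Nat.Coprime u v)
    (hT : T + c * v ^ 2 = 2 * u ^ 2) (hodd : ¬ (2 ∣ P ∧ 2 ∣ Q))
    (hPT : ∀ ℓ : ℕ, ℓ.Prime → ℓ ≠ 2 → ℓ ∣ P → ℓ ∣ Q → ℓ ∣ T)
    (hPv : ∀ ℓ : ℕ, ℓ.Prime → ℓ ∣ P → ℓ ∣ Q → ℓ ∣ b ∨ ℓ ∣ v) : Nat.Coprime P Q := by
  by_contra hnc
  obtain ⟨ℓ, hℓ, hℓP, hℓQ⟩ := Nat.Prime.not_coprime_iff_dvd.mp hnc
  have hℓ2 : ℓ ≠ 2 := by
    rintro rfl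
    exact hodd ⟨hℓP, hℓQ⟩
  have hℓT : ℓ ∣ T := hPT ℓ hℓ hℓ2 hℓP hℓQ
  have hfin : ℓ ∣ u ∧ ℓ ∣ v := by
    rcases hPv ℓ hℓ hℓP hℓQ with hb | hv
    · exact H.hres ℓ u v T hℓ hb hT hℓT
    · refine ⟨?_, hv⟩
      have h1 : ℓ ∣ 2 * u ^ 2 := by
        rw [← hT]
        exact dvd_add hℓT (Dvd.dvd.mul_left (dvd_pow hv two_ne_zero) c)
      have h2 : ℓ ∣ u ^ 2 := by
        rcases (Nat.Prime.dvd_mul hℓ).mp h1 with h | h
        · exact absurd ((Nat.prime_dvd_prime_iff_eq hℓ Nat.prime_two).mp h) hℓ2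
        · exact h
      exact hℓ.dvd_of_dvd_pow h2
  have := Nat.dvd_gcd hfin.1 hfin.2
  rw [huv] at this
  exact hℓ.one_lt.ne' (Nat.dvd_one.mp this)

theorem le_of_mul_eq_pos {α β v : ℕ} (h : α * β = v) (hv : 0 < v) : 0 < α ∧ 0 < β ∧ α ≤ v ∧ β ≤ v := by
  have hα : 0 < α := by
    rcases Nat.eq_zero_or_pos α with h0 | h0
    · subst h0; simp at h; omega
    · exact h0
  have hβ : 0 < β := by
    rcases Nat.eq_zero_or_pos β with h0 | h0
    · subst h0; simp at h; omega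
    · exact h0
  refine ⟨hα, hβ, ?_, ?_⟩
  · rw [← h]; exact Nat.le_mul_of_pos_right α hβ
  · rw [← h]; exact Nat.le_mul_of_pos_left β hα

/-- The induction hypothesis shape: no solutions with the given `e`. -/
def NoSol (c b e : ℕ) : Prop :=
  ∀ M N : ℕ, N ^ 2 = M ^ 4 + 2 * c * M ^ 2 * e ^ 2 + b * e ^ 4 → False

/-- Second half of the descent step: from `M² + c u² v² + v⁴ = u⁴` to a smaller solution. -/
theorem step_two {c b : ℕ} (H : Hyp c b) {e : ℕ} (ih : ∀ e' < e, 0 < e' → NoSol c b e')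
    {M u v : ℕ} (hu : 0 < u) (hv : 0 < v) (he : e = u * v) (huv : Nat.Coprime u v)
    (key : M ^ 2 + c * u ^ 2 * v ^ 2 + v ^ 4 = u ^ 4) : False := by
  have hcodd : c % 2 = 1 := by have := H.hc8; omega
  have hcpos : 0 < c := by have := H.hc8; omega
  -- not both odd
  have hpar : ¬ (u % 2 = 1 ∧ v % 2 = 1) := by
    rintro ⟨hu1, hv1⟩
    have hz := congrArg (Nat.cast : ℕ → ZMod 8) key
    push_cast at hz
    have hc3 : ((c : ℕ) : ZMod 8) = 3 := by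
      have h1 : ((c % 8 : ℕ) : ZMod 8) = (c : ZMod 8) := ZMod.natCast_mod c 8
      rw [H.hc8] at h1
      rw [← h1]; rfl
    rw [hc3] at hz
    exact mod8_fact _ _ _ hz (four_mul_ne_zero_of_odd hu1) (four_mul_ne_zero_of_odd hv1)
  have hu2 : 0 < u ^ 2 := by positivity
  have hv2 : 0 < v ^ 2 := by positivity
  have hv4 : 0 < v ^ 4 := by positivity
  -- T
  have hlt : c * v ^ 2 < u ^ 2 := by
    have h1 : c * v ^ 2 * u ^ 2 < u ^ 2 * u ^ 2 := by nlinarith [key]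
    exact Nat.lt_of_mul_lt_mul_right h1
  obtain ⟨T, hT⟩ : ∃ T, T + c * v ^ 2 = 2 * u ^ 2 := ⟨2 * u ^ 2 - c * v ^ 2, by omega⟩
  have hT2 : T ^ 2 = 4 * M ^ 2 + b * v ^ 4 := by
    have hTz : (T : ℤ) = 2 * (u : ℤ) ^ 2 - c * (v : ℤ) ^ 2 := by
      have := congrArg (Nat.cast : ℕ → ℤ) hT
      push_cast at this
      linarith
    have keyz : (M : ℤ) ^ 2 + c * (u : ℤ) ^ 2 * (v : ℤ) ^ 2 + (v : ℤ) ^ 4 = (u : ℤ) ^ 4 := by
      exact_mod_cast key
    have : (T : ℤ) ^ 2 = 4 * (M : ℤ) ^ 2 + (b : ℤ) * (v : ℤ) ^ 4 := by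
      rw [hTz, H.hb]
      push_cast
      linear_combination (-4 : ℤ) * keyz
    exact_mod_cast this
  have hbpos : 0 < b := by rw [H.hb]; positivity
  have hTM : 2 * M < T := by
    apply lt_of_sq_lt_sq'
    have : 0 < b * v ^ 4 := Nat.mul_pos hbpos hv4
    rw [hT2, mul_pow]; omega
  rcases Nat.mod_two_eq_zero_or_one v with hv0 | hv1
  · -- v even, u odd
    have hu1 : u % 2 = 1 := by
      by_contra hu0
      have h2u : 2 ∣ u := by omega
      have h2v : 2 ∣ v := by omega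
      have := Nat.dvd_gcd h2u h2v
      rw [huv] at this
      omega
    obtain ⟨v1, rfl⟩ : ∃ v1, v = 2 * v1 := ⟨v / 2, by omega⟩
    have hv1pos : 0 < v1 := by omega
    obtain ⟨T1, rfl⟩ : ∃ T1, T = 2 * T1 := ⟨T / 2, by
      have h4 : c * (2 * v1) ^ 2 = 4 * (c * v1 ^ 2) := by ring
      rw [h4] at hT
      omega⟩
    have hT1 : T1 + 2 * c * v1 ^ 2 = u ^ 2 := by
      have h4 : (2 * v1) ^ 2 = 4 * v1 ^ 2 := by ring
      rw [h4] at hT
      have : c * (4 * v1 ^ 2) = 4 * (c * v1 ^ 2) := by ring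
      rw [this] at hT
      have : 2 * c * v1 ^ 2 = 2 * (c * v1 ^ 2) := by ring
      rw [this]
      omega
    have hT12 : T1 ^ 2 = M ^ 2 + 4 * (b * v1 ^ 4) := by
      have h4 : (2 * T1) ^ 2 = 4 * T1 ^ 2 := by ring
      have h5 : b * (2 * v1) ^ 4 = 16 * (b * v1 ^ 4) := by ring
      rw [h4, h5] at hT2
      omega
    have hM1 : M % 2 = 1 := by
      have h1 : u ^ 2 % 2 = 1 := by rw [sq_mod_two]; exact hu1
      have h2 : T1 % 2 = 1 := by
        have : 2 * c * v1 ^ 2 = 2 * (c * v1 ^ 2) := by ring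
        rw [this] at hT1
        omega
      have h3 : T1 ^ 2 % 2 = 1 := by rw [sq_mod_two]; exact h2
      have h4 : M ^ 2 % 2 = 1 := by omega
      rw [sq_mod_two] at h4; exact h4
    have hT1odd : T1 % 2 = 1 := by
      have h1 : u ^ 2 % 2 = 1 := by rw [sq_mod_two]; exact hu1
      have : 2 * c * v1 ^ 2 = 2 * (c * v1 ^ 2) := by ring
      rw [this] at hT1
      omega
    have hMT1 : M < T1 := by omega
    obtain ⟨P1, hP1⟩ : ∃ P1, T1 = M + 2 * P1 := ⟨(T1 - M) / 2, by omega⟩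
    have hP1pos : 0 < P1 := by omega
    have hprod : P1 * (M + P1) = b * v1 ^ 4 := by
      have h1 : (M + 2 * P1) ^ 2 = M ^ 2 + 4 * (P1 * (M + P1)) := by ring
      rw [hP1, h1] at hT12
      omega
    have hcop : Nat.Coprime P1 (M + P1) := by
      have hT' : 2 * T1 + c * (2 * v1) ^ 2 = 2 * u ^ 2 := hT
      refine coprime_PQ H huv hT' ?_ ?_ ?_
      · rintro ⟨h1, h2⟩
        omega
      · intro ℓ hℓ _ h1 h2
        have : ℓ ∣ T1 := by
          rw [hP1]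
          have : M + 2 * P1 = (M + P1) + P1 := by ring
          rw [this]; exact dvd_add h2 h1
        exact Dvd.dvd.mul_left this 2
      · intro ℓ hℓ h1 _
        have h3 : ℓ ∣ b * v1 ^ 4 := hprod ▸ Dvd.dvd.mul_right h1 _
        rcases (Nat.Prime.dvd_mul hℓ).mp h3 with h | h
        · exact Or.inl h
        · exact Or.inr (Dvd.dvd.mul_left (hℓ.dvd_of_dvd_pow h) 2)
    obtain ⟨α, β, hab, hcase⟩ := H.hsplit P1 (M + P1) v1 hcop hprod
    obtain ⟨hα, hβ, hαle, hβle⟩ := le_of_mul_eq_pos hab hv1pos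
    have hv1e : v1 < e := by
      rw [he]
      calc v1 < 2 * v1 := by omega
        _ ≤ u * (2 * v1) := Nat.le_mul_of_pos_left _ hu
    have hsum : u ^ 2 = P1 + (M + P1) + 2 * c * v1 ^ 2 := by omega
    rcases hcase with ⟨hP, hQ⟩ | ⟨hP, hQ⟩
    · refine ih α (by omega) hα β u ?_
      rw [hsum, hQ, hP, ← hab]; ring
    · refine ih β (by omega) hβ α u ?_
      rw [hsum, hQ, hP, ← hab]; ring
  · -- v odd, u even
    have hu0 : u % 2 = 0 := by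
      by_contra hu1
      exact hpar ⟨by omega, hv1⟩
    have hu2' : 2 ≤ u := by omega
    have hTodd : T % 2 = 1 := by
      have h1 : v ^ 2 % 2 = 1 := by rw [sq_mod_two]; exact hv1
      have h2 : (c * v ^ 2) % 2 = 1 := by rw [Nat.mul_mod, hcodd, h1]
      omega
    obtain ⟨P, hP⟩ : ∃ P, T = 2 * M + P := ⟨T - 2 * M, by omega⟩
    have hPpos : 0 < P := by omega
    have hprod : P * (4 * M + P) = b * v ^ 4 := by
      have h1 : (2 * M + P) ^ 2 = 4 * M ^ 2 + P * (4 * M + P) := by ring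
      rw [hP, h1] at hT2
      omega
    have hcop : Nat.Coprime P (4 * M + P) := by
      refine coprime_PQ H huv hT ?_ ?_ ?_
      · rintro ⟨h1, _⟩
        omega
      · intro ℓ hℓ hℓ2 h1 h2
        have h4M : ℓ ∣ 4 * M := (Nat.dvd_add_left h1).mp h2
        have hcop2 : Nat.Coprime ℓ 4 := by
          have : Nat.Coprime ℓ 2 := (Nat.coprime_primes hℓ Nat.prime_two).mpr hℓ2
          exact Nat.Coprime.pow_right 2 this
        have hM : ℓ ∣ M := hcop2.dvd_of_dvd_mul_left h4M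
        rw [hP]
        exact dvd_add (Dvd.dvd.mul_left hM 2) h1
      · intro ℓ hℓ h1 _
        have h3 : ℓ ∣ b * v ^ 4 := hprod ▸ Dvd.dvd.mul_right h1 _
        rcases (Nat.Prime.dvd_mul hℓ).mp h3 with h | h
        · exact Or.inl h
        · exact Or.inr (hℓ.dvd_of_dvd_pow h)
    obtain ⟨α, β, hab, hcase⟩ := H.hsplit P (4 * M + P) v hcop hprod
    obtain ⟨hα, hβ, hαle, hβle⟩ := le_of_mul_eq_pos hab hv
    have hve : v < e := by
      rw [he]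
      calc v < 2 * v := by omega
        _ ≤ u * v := Nat.mul_le_mul_right v hu2'
    have hsum : (2 * u) ^ 2 = P + (4 * M + P) + 2 * c * v ^ 2 := by
      have h1 : (2 * u) ^ 2 = 2 * (2 * u ^ 2) := by ring
      have h2 : 2 * c * v ^ 2 = 2 * (c * v ^ 2) := by ring
      rw [h1, h2, ← hT, hP]; ring
    rcases hcase with ⟨hP', hQ⟩ | ⟨hP', hQ⟩
    · refine ih α (by omega) hα β (2 * u) ?_
      rw [hsum, hQ, hP', ← hab]; ring
    · refine ih β (by omega) hβ α (2 * u) ?_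
      rw [hsum, hQ, hP', ← hab]; ring

/-- The quartic `N² = M⁴ + 2 c M² e² + b e⁴` has no solutions with `e > 0`. -/
theorem quartic_no_sol {c b : ℕ} (H : Hyp c b) : ∀ e : ℕ, 0 < e → NoSol c b e := by
  intro e
  induction e using Nat.strong_induction_on with
  | _ e ih =>
    intro he M N h
    by_cases hcop : Nat.Coprime M e
    · -- first half of the descent
      have he4 : 0 < e ^ 4 := by positivity
      have hA : N ^ 2 = (M ^ 2 + c * e ^ 2) ^ 2 + 4 * e ^ 4 := by rw [h, H.hb]; ring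
      generalize hAdef : M ^ 2 + c * e ^ 2 = A at hA
      have hAN : A < N := by
        apply lt_of_sq_lt_sq'
        omega
      have hparity : N % 2 = A % 2 := by
        have h1 : N ^ 2 % 2 = A ^ 2 % 2 := by omega
        rw [sq_mod_two, sq_mod_two] at h1
        exact h1
      obtain ⟨d, hd⟩ : ∃ d, N = A + 2 * d := ⟨(N - A) / 2, by omega⟩
      have hdpos : 0 < d := by omega
      have hprod : (A + d) * d = e ^ 4 := by
        have h1 : (A + 2 * d) ^ 2 = A ^ 2 + 4 * ((A + d) * d) := by ring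
        rw [hd, h1] at hA
        omega
      have hAe : Nat.Coprime A e := by
        rw [← hAdef]
        have h1 : Nat.Coprime (M ^ 2) e := Nat.Coprime.pow_left 2 hcop
        have h2 : c * e ^ 2 = (c * e) * e := by ring
        rw [h2]
        exact (Nat.coprime_add_mul_right_left (M ^ 2) e (c * e)).mpr h1
      have hAd : Nat.Coprime A d :=
        Nat.Coprime.coprime_dvd_right (Dvd.intro_left _ hprod) (Nat.Coprime.pow_right 4 hAe)
      have hcop2 : Nat.Coprime (A + d) d := (Nat.coprime_add_self_left).mpr hAd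
      obtain ⟨u, v, huv, hu4, hv4⟩ := split_pow4 hcop2 hprod
      obtain ⟨hu, hv, -, -⟩ := le_of_mul_eq_pos huv he
      have hcuv : Nat.Coprime u v := by
        rw [hu4, hv4] at hcop2
        exact Nat.Coprime.coprime_dvd_left (dvd_pow_self u (by norm_num))
          (Nat.Coprime.coprime_dvd_right (dvd_pow_self v (by norm_num)) hcop2)
      have key : M ^ 2 + c * u ^ 2 * v ^ 2 + v ^ 4 = u ^ 4 := by
        rw [← hu4, ← hv4, ← hAdef, ← huv]; ring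
      exact step_two H ih hu hv huv.symm hcuv key
    · -- common factor
      have hg1 : Nat.gcd M e ∣ M := Nat.gcd_dvd_left _ _
      have hg2 : Nat.gcd M e ∣ e := Nat.gcd_dvd_right _ _
      have hgpos : 0 < Nat.gcd M e := Nat.gcd_pos_of_pos_right _ he
      have hg2' : 2 ≤ Nat.gcd M e := by
        have : Nat.gcd M e ≠ 1 := hcop
        omega
      generalize Nat.gcd M e = g at hg1 hg2 hgpos hg2'
      obtain ⟨M1, rfl⟩ := hg1
      obtain ⟨e1, rfl⟩ := hg2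
      have he1 : 0 < e1 := Nat.pos_of_mul_pos_left he
      have hdvd : g ^ 2 ∣ N := by
        have : (g ^ 2) ^ 2 ∣ N ^ 2 :=
          ⟨M1 ^ 4 + 2 * c * M1 ^ 2 * e1 ^ 2 + b * e1 ^ 4, by rw [h]; ring⟩
        exact (Nat.pow_dvd_pow_iff two_ne_zero).mp this
      obtain ⟨N1, rfl⟩ := hdvd
      have hg4 : 0 < g ^ 4 := by positivity
      have hlt : e1 < g * e1 := by nlinarith
      refine ih e1 hlt he1 M1 N1 ?_
      apply Nat.eq_of_mul_eq_mul_left hg4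
      have e1' : g ^ 4 * N1 ^ 2 = (g ^ 2 * N1) ^ 2 := by ring
      rw [e1', h]; ring

theorem exists_nat_sq (q : ℚ) : ∃ a d : ℕ, 0 < d ∧ q ^ 2 * (d : ℚ) ^ 2 = (a : ℚ) ^ 2 := by
  refine ⟨q.num.natAbs, q.den, q.pos, ?_⟩
  have h1 : q * (q.den : ℚ) = (q.num : ℚ) := Rat.mul_den_eq_num q
  have h2 : ((q.num.natAbs : ℕ) : ℚ) ^ 2 = (q.num : ℚ) ^ 2 := by
    rw [Nat.cast_natAbs, Int.cast_abs, sq_abs]
  rw [h2, ← h1]; ring

/-- no rational solutions of `t² = s⁴ + 2 c s² + b`. -/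
theorem rat_quartic_false {c b : ℕ} (H : Hyp c b) (s t : ℚ)
    (h : t ^ 2 = s ^ 4 + 2 * c * s ^ 2 + b) : False := by
  obtain ⟨M, e, he, hMe⟩ := exists_nat_sq s
  have heq : (e : ℚ) ≠ 0 := by exact_mod_cast he.ne'
  have hsq : IsSquare (((M ^ 4 + 2 * c * M ^ 2 * e ^ 2 + b * e ^ 4 : ℕ)) : ℚ) := by
    refine ⟨t * (e : ℚ) ^ 2, ?_⟩
    push_cast
    have h1 : (t * (e : ℚ) ^ 2) * (t * (e : ℚ) ^ 2) = t ^ 2 * (e : ℚ) ^ 4 := by ring
    rw [h1, h]
    have h2 : (M : ℚ) ^ 4 = (s ^ 2 * (e : ℚ) ^ 2) ^ 2 := by rw [hMe]; ring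
    rw [h2, ← hMe]; ring
  rw [Rat.isSquare_natCast_iff] at hsq
  obtain ⟨N, hN⟩ := hsq
  exact quartic_no_sol H e he M N (by rw [sq, hN])

theorem sq_of_cube_sq {d r : ℕ} (hd : 0 < d) (h : d ^ 3 = r * r) : ∃ w : ℕ, d = w ^ 2 := by
  have h1 : d ^ 2 ∣ r ^ 2 := ⟨d, by rw [sq r, ← h]; ring⟩
  have h2 : d ∣ r := (Nat.pow_dvd_pow_iff two_ne_zero).mp h1
  obtain ⟨w, rfl⟩ := h2
  refine ⟨w, ?_⟩
  have hd2 : 0 < d ^ 2 := by positivity
  have : d ^ 2 * d = d ^ 2 * w ^ 2 := by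
    have e : d ^ 2 * d = d ^ 3 := by ring
    rw [e, h]; ring
  exact Nat.eq_of_mul_eq_mul_left hd2 this

theorem cubic_frac (a b n d : ℚ) (hd : d ≠ 0) :
    (n / d) * ((n / d) ^ 2 + a * (n / d) + b) = (n * (n ^ 2 + a * n * d + b * d ^ 2)) / d ^ 3 := by
  field_simp

/-- integral model of a rational point of `Y² = X (X² + a X + b)`. -/
theorem exists_int_model_cubic (a b : ℤ) (X Y : ℚ) (h : Y ^ 2 = X * (X ^ 2 + a * X + b)) :
    ∃ n W m : ℤ, W ≠ 0 ∧ IsCoprime n W ∧ X = (n : ℚ) / (W : ℚ) ^ 2 ∧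
      n * (n ^ 2 + a * n * W ^ 2 + b * W ^ 4) = m ^ 2 := by
  have hdpos : 0 < X.den := X.pos
  have hXnd : X = (X.num : ℚ) / (X.den : ℚ) := (Rat.num_div_den X).symm
  have hcop : IsCoprime X.num (X.den : ℤ) := by
    rw [Int.isCoprime_iff_gcd_eq_one]
    exact X.reduced
  have hcopN : IsCoprime (X.num * (X.num ^ 2 + a * X.num * X.den + b * (X.den : ℤ) ^ 2))
      ((X.den : ℤ) ^ 3) := by
    have h1 : IsCoprime (X.num ^ 2 + a * X.num * X.den + b * (X.den : ℤ) ^ 2) (X.den : ℤ) := by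
      have := (hcop.pow_left (m := 2)).add_mul_left_left (a * X.num + b * X.den)
      have e : X.num ^ 2 + (X.den : ℤ) * (a * X.num + b * X.den)
          = X.num ^ 2 + a * X.num * X.den + b * (X.den : ℤ) ^ 2 := by ring
      rw [e] at this
      exact this
    exact (hcop.mul_left h1).pow_right
  have hdq : (X.den : ℚ) ≠ 0 := by exact_mod_cast hdpos.ne'
  have hq : Y ^ 2 = ((X.num * (X.num ^ 2 + a * X.num * X.den + b * (X.den : ℤ) ^ 2) : ℤ) : ℚ)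
      / (((X.den : ℤ) ^ 3 : ℤ) : ℚ) := by
    have key := cubic_frac (a : ℚ) (b : ℚ) (X.num : ℚ) (X.den : ℚ) hdq
    rw [← hXnd] at key
    rw [h, key]
    push_cast
    ring
  have hsq : IsSquare (((X.num * (X.num ^ 2 + a * X.num * X.den + b * (X.den : ℤ) ^ 2) : ℤ) : ℚ)
      / (((X.den : ℤ) ^ 3 : ℤ) : ℚ)) := ⟨Y, by rw [← hq]; ring⟩
  rw [Rat.isSquare_iff] at hsq
  have hd3pos : (0 : ℤ) < (X.den : ℤ) ^ 3 := by positivity
  have hnatcop : Nat.Coprime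
      (X.num * (X.num ^ 2 + a * X.num * X.den + b * (X.den : ℤ) ^ 2)).natAbs
      ((X.den : ℤ) ^ 3).natAbs := Int.isCoprime_iff_gcd_eq_one.mp hcopN
  rw [Rat.num_div_eq_of_coprime hd3pos hnatcop] at hsq
  have hden : (((X.num * (X.num ^ 2 + a * X.num * X.den + b * (X.den : ℤ) ^ 2) : ℤ) : ℚ)
      / (((X.den : ℤ) ^ 3 : ℤ) : ℚ)).den = X.den ^ 3 := by
    have := Rat.den_div_eq_of_coprime hd3pos hnatcop
    exact_mod_cast this
  rw [hden] at hsq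
  obtain ⟨⟨m, hm⟩, ⟨r, hr⟩⟩ := hsq
  obtain ⟨w, hw⟩ := sq_of_cube_sq hdpos hr
  have hw0 : w ≠ 0 := by
    rintro rfl
    simp at hw
  refine ⟨X.num, (w : ℤ), m, by exact_mod_cast hw0, ?_, ?_, ?_⟩
  · have : IsCoprime X.num ((w : ℤ) ^ 2) := by
      have e : ((w : ℤ) ^ 2) = (X.den : ℤ) := by exact_mod_cast hw.symm
      rw [e]; exact hcop
    exact (IsCoprime.pow_right_iff (by norm_num)).mp this
  · have e : ((w : ℚ) ^ 2) = (X.den : ℚ) := by exact_mod_cast hw.symm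
    rw [Int.cast_natCast, e]
    exact hXnd
  · have e : ((w : ℤ) ^ 2) = (X.den : ℤ) := by exact_mod_cast hw.symm
    have e4 : ((w : ℤ) ^ 4) = (X.den : ℤ) ^ 2 := by rw [← e]; ring
    rw [e, e4, sq m, ← hm]

theorem class_nat {π k : ℕ} (hπ : π.Prime) {a n W m : ℕ} (hn : 0 < n) (hc : Nat.Coprime n W)
    (hm : n * (n ^ 2 + a * n * W ^ 2 + π ^ k * W ^ 4) = m ^ 2) :
    ∃ r : ℕ, n = r ^ 2 ∨ n = π * r ^ 2 := by
  generalize hK : n ^ 2 + a * n * W ^ 2 + π ^ k * W ^ 4 = K at hm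
  obtain ⟨n', K', hcop, hn', hK'⟩ := Nat.exists_coprime n K
  have hgn : Nat.gcd n K ∣ n := Nat.gcd_dvd_left _ _
  have hgK : Nat.gcd n K ∣ K := Nat.gcd_dvd_right _ _
  have hgpos : 0 < Nat.gcd n K := Nat.gcd_pos_of_pos_left _ hn
  generalize Nat.gcd n K = g at hn' hK' hgn hgK hgpos
  have hgb : g ∣ π ^ k := by
    have h1 : K = n * (n + a * W ^ 2) + π ^ k * W ^ 4 := by rw [← hK]; ring
    have h2 : g ∣ π ^ k * W ^ 4 := by
      rw [h1] at hgK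
      exact (Nat.dvd_add_right (Dvd.dvd.mul_right hgn _)).mp hgK
    have h3 : Nat.Coprime g (W ^ 4) :=
      Nat.Coprime.pow_right 4 (Nat.Coprime.coprime_dvd_left hgn hc)
    exact h3.dvd_of_dvd_mul_right h2
  obtain ⟨i, -, hgi⟩ := (Nat.dvd_prime_pow hπ).mp hgb
  have hgm : g ∣ m := by
    have : g ^ 2 ∣ m ^ 2 := ⟨n' * K', by rw [← hm, hn', hK']; ring⟩
    exact (Nat.pow_dvd_pow_iff two_ne_zero).mp this
  obtain ⟨m', rfl⟩ := hgm
  have hprod : n' * K' = m' ^ 2 := by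
    have hg2 : 0 < g ^ 2 := by positivity
    apply Nat.eq_of_mul_eq_mul_left hg2
    have e1 : g ^ 2 * (n' * K') = (n' * g) * (K' * g) := by ring
    rw [e1, ← hn', ← hK', hm]; ring
  obtain ⟨r0, hr0⟩ := sq_of_coprime_mul hcop hprod
  rcases Nat.even_or_odd' i with ⟨t, rfl | rfl⟩
  · refine ⟨r0 * π ^ t, Or.inl ?_⟩
    rw [hn', hr0, hgi]; ring
  · refine ⟨r0 * π ^ t, Or.inr ?_⟩
    rw [hn', hr0, hgi]; ring

theorem class_of_point {π k : ℕ} (hπ : π.Prime) (a : ℕ) (x y : ℚ) (hx : 0 < x)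
    (h : y ^ 2 = x * (x ^ 2 + (a : ℚ) * x + ((π ^ k : ℕ) : ℚ))) :
    ∃ s : ℚ, x = s ^ 2 ∨ x = (π : ℚ) * s ^ 2 := by
  obtain ⟨n, W, m, hW, hc, hX, hm⟩ := exists_int_model_cubic (a : ℤ) ((π ^ k : ℕ) : ℤ) x y
    (by push_cast; push_cast at h; exact h)
  have hWq : (W : ℚ) ≠ 0 := by exact_mod_cast hW
  have hW2pos : (0 : ℚ) < (W : ℚ) ^ 2 := by positivity
  have hnpos : 0 < n := by
    have : (0 : ℚ) < (n : ℚ) := by
      rw [hX] at hx
      exact (div_pos_iff_of_pos_right hW2pos).mp hx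
    exact_mod_cast this
  obtain ⟨n₀, rfl⟩ := Int.eq_ofNat_of_zero_le hnpos.le
  have hcN : Nat.Coprime n₀ W.natAbs := by
    have h1 := Int.isCoprime_iff_gcd_eq_one.mp hc
    rw [Int.gcd_eq_natAbs, Int.natAbs_natCast] at h1
    exact h1
  have hW2 : ((W.natAbs : ℕ) : ℤ) ^ 2 = W ^ 2 := Int.natAbs_sq W
  have hW0 : W.natAbs ≠ 0 := Int.natAbs_ne_zero.mpr hW
  have hm2 : ((m.natAbs : ℕ) : ℤ) ^ 2 = m ^ 2 := Int.natAbs_sq m
  generalize W.natAbs = W₀ at hW2 hW0 hcN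
  generalize m.natAbs = m₀ at hm2
  have hW4 : (W₀ : ℤ) ^ 4 = W ^ 4 := by
    have : (W₀ : ℤ) ^ 4 = ((W₀ : ℤ) ^ 2) ^ 2 := by ring
    rw [this, hW2]; ring
  have hnN : 0 < n₀ := by exact_mod_cast hnpos
  have hmN : n₀ * (n₀ ^ 2 + a * n₀ * W₀ ^ 2 + π ^ k * W₀ ^ 4) = m₀ ^ 2 := by
    apply Int.natCast_inj.mp
    push_cast
    push_cast at hm
    linear_combination hm + ((a : ℤ) * (n₀ : ℤ) ^ 2) * hW2 + ((n₀ : ℤ) * (π : ℤ) ^ k) * hW4 - hm2
  obtain ⟨r, hr⟩ := class_nat hπ hnN hcN hmN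
  have hW0q : (W₀ : ℚ) ≠ 0 := by exact_mod_cast hW0
  have hW2q : (W₀ : ℚ) ^ 2 = (W : ℚ) ^ 2 := by exact_mod_cast hW2
  have hX' : x = (n₀ : ℚ) / (W₀ : ℚ) ^ 2 := by rw [hX, hW2q]; simp
  refine ⟨(r : ℚ) / (W₀ : ℚ), ?_⟩
  rcases hr with hr | hr
  · left
    have : (n₀ : ℚ) = (r : ℚ) ^ 2 := by exact_mod_cast hr
    rw [hX', div_pow, this]
  · right
    have : (n₀ : ℚ) = (π : ℚ) * (r : ℚ) ^ 2 := by exact_mod_cast hr
    rw [hX', div_pow, this]; ring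

theorem sq_point_false {c b : ℕ} (H : Hyp c b) (x y s : ℚ) (hx0 : x ≠ 0) (hs : x = s ^ 2)
    (h : y ^ 2 = x * (x ^ 2 + 2 * (c : ℚ) * x + (b : ℚ))) : False := by
  have hs0 : s ≠ 0 := by
    rintro rfl
    exact hx0 (by rw [hs]; ring)
  refine rat_quartic_false H s (y / s) ?_
  rw [div_pow, h, hs]
  field_simp

/-- The curve `y² = x (x² + 2 c x + b)` has no rational point with `x ≠ 0`. -/
theorem no_rat_point {c b π j : ℕ} (H : Hyp c b) (hπ : π.Prime) (hbπ : b = π ^ (2 * j + 1))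
    (x y : ℚ) (h : y ^ 2 = x * (x ^ 2 + 2 * (c : ℚ) * x + (b : ℚ))) : x = 0 := by
  by_contra hx0
  have hbq : (b : ℚ) = (c : ℚ) ^ 2 + 4 := by exact_mod_cast H.hb
  have hfac : 0 < x ^ 2 + 2 * (c : ℚ) * x + (b : ℚ) := by
    rw [hbq]; nlinarith [sq_nonneg (x + (c : ℚ))]
  have hxpos : 0 < x := by
    rcases lt_or_gt_of_ne hx0 with hneg | hpos
    · exfalso
      have h1 : x * (x ^ 2 + 2 * (c : ℚ) * x + (b : ℚ)) < 0 := mul_neg_of_neg_of_pos hneg hfac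
      have h2 : 0 ≤ y ^ 2 := sq_nonneg y
      linarith
    · exact hpos
  have h' : y ^ 2 = x * (x ^ 2 + ((2 * c : ℕ) : ℚ) * x + ((π ^ (2 * j + 1) : ℕ) : ℚ)) := by
    rw [h, hbπ]; push_cast; ring
  obtain ⟨s, hs⟩ := class_of_point hπ (2 * c) x y hxpos h'
  rcases hs with hs | hs
  · exact sq_point_false H x y s hx0 hs h
  · have hs0 : s ≠ 0 := by
      rintro rfl
      exact hx0 (by rw [hs]; ring)
    have hπq : (π : ℚ) ≠ 0 := by exact_mod_cast hπ.ne_zero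
    have hbq' : (b : ℚ) = (π : ℚ) ^ (2 * j + 1) := by exact_mod_cast hbπ
    have hb0 : (b : ℚ) ≠ 0 := by rw [hbq']; positivity
    refine sq_point_false H ((b : ℚ) / x) ((b : ℚ) * y / x ^ 2) ((π : ℚ) ^ j / s)
      (div_ne_zero hb0 hx0) ?_ ?_
    · rw [hs, hbq']
      field_simp
      ring
    · rw [div_pow, mul_pow, h]
      field_simp
      ring

end Fermat.Agent.S10.DescCommon
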