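import Fermat.Agent.S51.Dbl

/-!
# S10 (modular hedge): addition/subtraction and duplication formulas in the normalized
x-coordinate `ξ = x + b₂/12`.
-/

set_option autoImplicit false

namespace Fermat.Agent.S10

open WeierstrassCurve

variable {K : Type*} [Field K] [DecidableEq K] [CharZero K]

/-- The sum of the normalized x-coordinates of `P + Q` and `P - Q`. -/
theorem xi_add_sub (E : WeierstrassCurve K) (P Q : E.toAffine.Point) (hP : P ≠ 0) (hQ : Q ≠ 0)
    (hne : S51.xi E P ≠ S51.xi E Q) :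
    (S51.xi E P - S51.xi E Q) ^ 2 * (S51.xi E (P + Q) + S51.xi E (P - Q)) =
      2 * ((S51.xi E P * S51.xi E Q + S51.cA E) * (S51.xi E P + S51.xi E Q) + 2 * S51.cB E) := by
  rcases P with _ | ⟨x₁, y₁, h₁⟩
  · exact absurd rfl hP
  rcases Q with _ | ⟨x₂, y₂, h₂⟩
  · exact absurd rfl hQ
  have hx : x₁ ≠ x₂ := fun h => hne (by simp [S51.xi, h])
  have hd : x₁ - x₂ ≠ 0 := sub_ne_zero.mpr hx
  rw [sub_eq_add_neg (Affine.Point.some x₁ y₁ h₁), Affine.Point.neg_some,
    Affine.Point.add_of_X_ne hx, Affine.Point.add_of_X_ne hx]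
  simp only [S51.xi]
  rw [Affine.slope_of_X_ne hx, Affine.slope_of_X_ne hx]
  have e₁ := (Affine.equation_iff _ _).mp h₁.1
  have e₂ := (Affine.equation_iff _ _).mp h₂.1
  simp only [Affine.addX, Affine.negY, S51.cA, S51.cB, WeierstrassCurve.b₂, WeierstrassCurve.b₄,
    WeierstrassCurve.b₆, WeierstrassCurve.c₄, WeierstrassCurve.c₆]
  field_simp
  linear_combination (144 * 12 * 48 * 864 * 2 * (x₁ - x₂) ^ 2) * e₁ +
    (144 * 12 * 48 * 864 * 2 * (x₁ - x₂) ^ 2) * e₂

/-- Duplication formula in the normalized x-coordinate. -/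
theorem xi_two_nsmul (E : WeierstrassCurve K) (P : E.toAffine.Point) (hP : P ≠ 0)
    (h2 : (2 : ℕ) • P ≠ 0) :
    S51.fpol (S51.cA E) (S51.cB E) (S51.xi E P) ≠ 0 ∧
      4 * S51.fpol (S51.cA E) (S51.cB E) (S51.xi E P) * S51.xi E ((2 : ℕ) • P) =
        S51.Npol (S51.cA E) (S51.cB E) (S51.xi E P) := by
  rcases P with _ | ⟨x, y, h⟩
  · exact absurd rfl hP
  have hy : y ≠ E.toAffine.negY x y := by
    intro hy
    apply h2
    rw [two_nsmul]
    exact Affine.Point.add_self_of_Y_eq hy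
  obtain ⟨x', y', h', hadd, hf, hN⟩ := S51.xi_double E h hy
  rw [two_nsmul, hadd, S51.xi_some, S51.xi_some]
  exact ⟨hf, hN⟩

end Fermat.Agent.S10
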